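import Mathlib

/-!
# S48 glue piece MAT, part 1: semisimplification of a two-dimensional representation
(helper256).  Mathlib-only.

For any homomorphism `r₀ : G →* GL₂(F)` from a group there is a homomorphism `r` with the same
traces and determinants, trivial wherever `r₀` is trivial, whose image is semisimple in the sense
that every stable line has a stable complementary line.
-/

set_option autoImplicit false

open scoped MatrixGroups
open Matrix

namespace Fermat.Agent.S48.H256

variable {F : Type*} [Field F]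

/-- An eigenvalue `c` of a `2 × 2` matrix `M` satisfies `c² - tr(M) c + det(M) = 0`. -/
theorem eigen_quadratic (M : Matrix (Fin 2) (Fin 2) F) (v : Fin 2 → F) (hv : v ≠ 0) (c : F)
    (h : M *ᵥ v = c • v) : c * c - M.trace * c + M.det = 0 := by
  have h0 : (M - Matrix.scalar (Fin 2) c) *ᵥ v = 0 := by
    rw [Matrix.sub_mulVec, h]
    ext i
    fin_cases i <;> simp [Matrix.scalar_apply]
  have hdet : (M - Matrix.scalar (Fin 2) c).det = 0 :=
    Matrix.exists_mulVec_eq_zero_iff.mp ⟨v, hv, h0⟩
  rw [Matrix.det_fin_two] at hdet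
  simp only [Matrix.sub_apply, Matrix.scalar_apply, Matrix.diagonal_apply] at hdet
  simp only [Matrix.trace_fin_two, Matrix.det_fin_two]
  simp at hdet
  linear_combination hdet

/-- The eigenvalue on a nonzero vector is unique. -/
theorem smul_right_injective_of_ne_zero' {v : Fin 2 → F} (hv : v ≠ 0) {c c' : F}
    (h : c • v = c' • v) : c = c' := by
  by_contra hne
  apply hv
  have : (c - c') • v = 0 := by rw [sub_smul, h, sub_self]
  rcases smul_eq_zero.mp this with h1 | h1
  · exact absurd (sub_eq_zero.mp h1) hne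
  · exact h1

/-- The diagonal homomorphism attached to two characters. -/
noncomputable def diagHom {G : Type*} [Group G] (χ₁ χ₂ : G →* Fˣ) : G →* GL (Fin 2) F :=
  MonoidHom.toHomUnits
    { toFun := fun g => Matrix.diagonal ![(χ₁ g : F), (χ₂ g : F)]
      map_one' := by
        ext i j
        fin_cases i <;> fin_cases j <;> simp
      map_mul' := fun g h => by
        rw [Matrix.diagonal_mul_diagonal]
        congr 1
        ext i
        fin_cases i <;> simp }

@[simp] theorem diagHom_coe {G : Type*} [Group G] (χ₁ χ₂ : G →* Fˣ) (g : G) :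
    ((diagHom χ₁ χ₂ g : GL (Fin 2) F) : Matrix (Fin 2) (Fin 2) F) =
      Matrix.diagonal ![(χ₁ g : F), (χ₂ g : F)] := rfl

/-- A group of diagonal matrices is semisimple: every stable line has a stable complement. -/
theorem stableLinesSplit_of_diagonal (G : Subgroup (GL (Fin 2) F))
    (hG : ∀ g ∈ G, ∃ a b : F, (g : Matrix (Fin 2) (Fin 2) F) = Matrix.diagonal ![a, b])
    (v : Fin 2 → F) (_hv : v ≠ 0)
    (_hst : ∀ g ∈ G, ∃ c : F, (g : Matrix (Fin 2) (Fin 2) F) *ᵥ v = c • v) :
    ∃ w : Fin 2 → F, (∀ c : F, w ≠ c • v) ∧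
      ∀ g ∈ G, ∃ c : F, (g : Matrix (Fin 2) (Fin 2) F) *ᵥ w = c • w := by
  by_cases h1 : v 1 = 0
  · -- `v` is a multiple of `e₀`; take `w = e₁`
    refine ⟨![0, 1], fun c hc => ?_, fun g hg => ?_⟩
    · have := congrFun hc 1
      simp [h1] at this
    · obtain ⟨a, b, hab⟩ := hG g hg
      refine ⟨b, ?_⟩
      rw [hab]
      ext i
      fin_cases i <;> simp [Matrix.mulVec, dotProduct, Fin.sum_univ_two]
  · by_cases h0 : v 0 = 0
    · -- `v` is a multiple of `e₁`; take `w = e₀`
      refine ⟨![1, 0], fun c hc => ?_, fun g hg => ?_⟩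
      · have := congrFun hc 0
        simp [h0] at this
      · obtain ⟨a, b, hab⟩ := hG g hg
        refine ⟨a, ?_⟩
        rw [hab]
        ext i
        fin_cases i <;> simp [Matrix.mulVec, dotProduct, Fin.sum_univ_two]
    · -- both coordinates nonzero: the group is scalar; take `w = e₀`
      refine ⟨![1, 0], fun c hc => ?_, fun g hg => ?_⟩
      · have h := congrFun hc 1
        simp at h
        rcases h with h | h
        · have h' := congrFun hc 0
          simp [h] at h'
        · exact h1 h
      · obtain ⟨a, b, hab⟩ := hG g hg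
        refine ⟨a, ?_⟩
        rw [hab]
        ext i
        fin_cases i <;> simp [Matrix.mulVec, dotProduct, Fin.sum_univ_two]

/-- **Semisimplification.**  For every `r₀ : G →* GL₂(F)` there is `r : G →* GL₂(F)` with
semisimple image, the same traces and determinants, and trivial wherever `r₀` is. -/
theorem exists_semisimplification {G : Type*} [Group G] (r₀ : G →* GL (Fin 2) F) :
    ∃ r : G →* GL (Fin 2) F,
      (∀ v : Fin 2 → F, v ≠ 0 →
        (∀ g ∈ r.range, ∃ c : F, (g : Matrix (Fin 2) (Fin 2) F) *ᵥ v = c • v) →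
        ∃ w : Fin 2 → F, (∀ c : F, w ≠ c • v) ∧
          ∀ g ∈ r.range, ∃ c : F, (g : Matrix (Fin 2) (Fin 2) F) *ᵥ w = c • w) ∧
      (∀ g : G, ((r g : GL (Fin 2) F) : Matrix (Fin 2) (Fin 2) F).trace =
        ((r₀ g : GL (Fin 2) F) : Matrix (Fin 2) (Fin 2) F).trace) ∧
      (∀ g : G, ((r g : GL (Fin 2) F) : Matrix (Fin 2) (Fin 2) F).det =
        ((r₀ g : GL (Fin 2) F) : Matrix (Fin 2) (Fin 2) F).det) ∧
      (∀ g : G, r₀ g = 1 → r g = 1) := by
  by_cases hss : ∀ v : Fin 2 → F, v ≠ 0 →
        (∀ g ∈ r₀.range, ∃ c : F, (g : Matrix (Fin 2) (Fin 2) F) *ᵥ v = c • v) →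
        ∃ w : Fin 2 → F, (∀ c : F, w ≠ c • v) ∧
          ∀ g ∈ r₀.range, ∃ c : F, (g : Matrix (Fin 2) (Fin 2) F) *ᵥ w = c • w
  · exact ⟨r₀, hss, fun _ => rfl, fun _ => rfl, fun _ h => h⟩
  · push Not at hss
    obtain ⟨v, hv, hst, -⟩ := hss
    -- the eigencharacter on `v`
    have hex : ∀ g : G, ∃ c : F, ((r₀ g : GL (Fin 2) F) : Matrix (Fin 2) (Fin 2) F) *ᵥ v = c • v :=
      fun g => hst (r₀ g) ⟨g, rfl⟩
    choose c hc using hex
    have hc1 : c 1 = 1 := by
      apply smul_right_injective_of_ne_zero' hv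
      rw [← hc 1, map_one]
      simp
    have hcmul : ∀ g h : G, c (g * h) = c g * c h := by
      intro g h
      apply smul_right_injective_of_ne_zero' hv
      rw [← hc (g * h), map_mul, Units.val_mul, ← Matrix.mulVec_mulVec, hc h, Matrix.mulVec_smul,
        hc g, smul_smul, mul_comm]
    let χ₁ : G →* Fˣ := MonoidHom.toHomUnits
      { toFun := c, map_one' := hc1, map_mul' := hcmul }
    have hχ₁ : ∀ g, (χ₁ g : F) = c g := fun g => rfl
    let δ : G →* Fˣ := (Matrix.GeneralLinearGroup.det).comp r₀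
    have hδ : ∀ g, (δ g : F) = ((r₀ g : GL (Fin 2) F) : Matrix (Fin 2) (Fin 2) F).det :=
      fun g => rfl
    let χ₂ : G →* Fˣ := δ / χ₁
    have hχ₂ : ∀ g, (χ₂ g : F) * c g = ((r₀ g : GL (Fin 2) F) : Matrix (Fin 2) (Fin 2) F).det := by
      intro g
      rw [← hδ, ← hχ₁]
      have : χ₂ g * χ₁ g = δ g := by
        simp [χ₂]
      rw [← Units.val_mul, this]
    refine ⟨diagHom χ₁ χ₂, ?_, ?_, ?_, ?_⟩
    · intro w hw hstw
      refine stableLinesSplit_of_diagonal _ ?_ w hw hstw
      rintro _ ⟨g, rfl⟩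
      exact ⟨_, _, diagHom_coe χ₁ χ₂ g⟩
    · intro g
      rw [diagHom_coe, Matrix.trace_fin_two]
      simp only [Matrix.diagonal_apply_eq, Matrix.cons_val_zero, Matrix.cons_val_one]
      have hq := eigen_quadratic _ v hv (c g) (hc g)
      have hne : c g ≠ 0 := by rw [← hχ₁]; exact Units.ne_zero _
      have h2 := hχ₂ g
      rw [hχ₁]
      apply mul_right_cancel₀ hne
      linear_combination hq + h2
    · intro g
      rw [diagHom_coe, Matrix.det_diagonal, Fin.prod_univ_two]
      simp only [Matrix.cons_val_zero, Matrix.cons_val_one]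
      rw [hχ₁, mul_comm]
      exact hχ₂ g
    · intro g hg
      have hcg : c g = 1 := by
        apply smul_right_injective_of_ne_zero' hv
        rw [← hc g, hg]
        simp
      have h1 : χ₁ g = 1 := Units.ext (by rw [hχ₁, hcg]; rfl)
      have h2 : χ₂ g = 1 := by
        apply Units.ext
        have := hχ₂ g
        rw [hcg, mul_one, hg] at this
        rw [this]
        simp
      apply Units.ext
      rw [diagHom_coe, h1, h2]
      ext i j
      fin_cases i <;> fin_cases j <;> simp

end Fermat.Agent.S48.H256
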