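import Fermat.Agent.S48.Top.Spec
import Fermat.Agent.S48.H256.MatSemisimple

/-!
# S48 glue piece MAT (helper256): `ResidualStatement → ResidualMatStatement`

Exact shape of `Fermat.Agent.S48.Top.ResidualMatPiece`.  From a Prelude `ResidualGaloisRep k`
(a two-dimensional `k`-space with a Galois action of finite level) we choose a basis, pass to
matrices, and semisimplify (`exists_semisimplification`): traces and determinants of Frobenius
are read off from the characteristic polynomial `X² - tr X + det`.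
-/

set_option autoImplicit false

open CongruenceSubgroup
open scoped MatrixGroups
open Matrix Polynomial

namespace Fermat.Agent.S48.H256

open Fermat.Agent.Lib.Cheb.Spec Fermat.Agent.Lib.Cheb.SpecQ Fermat.Agent.S48.Top

/-- The matrix form of a Prelude residual representation, in a chosen basis. -/
noncomputable def matOfResidual {k : Type} [Field k] (ρ : ResidualGaloisRep k) :
    GQ →* GL (Fin 2) k :=
  MonoidHom.toHomUnits
    ((LinearMap.toMatrixAlgEquiv
        (Module.finBasisOfFinrankEq k ρ.V ρ.finrank_eq)).toRingEquiv.toRingHom.toMonoidHom.comp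
      ρ.ρ)

theorem matOfResidual_coe {k : Type} [Field k] (ρ : ResidualGaloisRep k) (σ : GQ) :
    ((matOfResidual ρ σ : GL (Fin 2) k) : Matrix (Fin 2) (Fin 2) k) =
      LinearMap.toMatrix (Module.finBasisOfFinrankEq k ρ.V ρ.finrank_eq)
        (Module.finBasisOfFinrankEq k ρ.V ρ.finrank_eq) (ρ.ρ σ) := rfl

theorem matOfResidual_eq_one {k : Type} [Field k] (ρ : ResidualGaloisRep k) (σ : GQ)
    (h : ρ.ρ σ = 1) : matOfResidual ρ σ = 1 := by
  apply Units.ext
  rw [matOfResidual_coe, h]
  exact LinearMap.toMatrix_one _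

theorem matOfResidual_charpoly {k : Type} [Field k] (ρ : ResidualGaloisRep k) (σ : GQ) :
    ((matOfResidual ρ σ : GL (Fin 2) k) : Matrix (Fin 2) (Fin 2) k).charpoly =
      LinearMap.charpoly (ρ.ρ σ) := by
  rw [matOfResidual_coe]
  exact LinearMap.charpoly_toMatrix _ _

/-- Reading off trace and determinant from the characteristic polynomial of a `2 × 2` matrix. -/
theorem trace_det_of_charpoly {k : Type} [Field k] (M : Matrix (Fin 2) (Fin 2) k) (t d : k)
    (h : M.charpoly = X ^ 2 - C t * X + C d) : M.trace = t ∧ M.det = d := by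
  rw [Matrix.charpoly_fin_two] at h
  have h1 := congrArg (fun p : k[X] => p.coeff 1) h
  have h0 := congrArg (fun p : k[X] => p.coeff 0) h
  simp only [coeff_add, coeff_sub, coeff_X_pow, coeff_C_mul, coeff_X_one,
    coeff_X_zero, coeff_C] at h1 h0
  norm_num at h1 h0
  exact ⟨h1, h0⟩

/-- **MAT**: `ResidualStatement → ResidualMatStatement`. -/
theorem residualMat : Top.ResidualMatPiece := by
  intro hres N _ ε f hf
  obtain ⟨B, hB⟩ := hres N ε f hf
  refine ⟨B, fun ℓ hℓ hBℓ k _ _ φ => ?_⟩
  obtain ⟨ρ, hρ⟩ := hB ℓ hℓ hBℓ k φ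
  obtain ⟨r, hss, htr, hdet, hone⟩ := exists_semisimplification (matOfResidual ρ)
  refine ⟨r, ?_, hss, ?_⟩
  · obtain ⟨L, hL, h1⟩ := ρ.factorsThroughFiniteLevel
    exact ⟨L, hL, fun σ hσ => hone σ (matOfResidual_eq_one ρ σ (h1 σ hσ))⟩
  · intro p hp hpN A hA
    obtain ⟨hunr, hfrob⟩ := hρ p hp hpN
    refine ⟨fun σ hσ => hone σ (matOfResidual_eq_one ρ σ (hunr A hA σ hσ)), fun σ hσ => ?_⟩
    obtain ⟨a, e, ha, he, hcp⟩ := hfrob A hA σ hσ
    rw [← matOfResidual_charpoly] at hcp
    obtain ⟨h1, h2⟩ := trace_det_of_charpoly _ _ _ hcp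
    exact ⟨a, e, ha, he, (htr σ).trans h1, (hdet σ).trans h2⟩

end Fermat.Agent.S48.H256
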