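import Fermat.Agent.S48.H856.IgusaS18

/-!
# S48 / RES (Tower A1) / node IGUSA1, piece I-S28: transport of the base model   (helper256)

`IgusaData` (helper856, `S48/H856/IgusaS18.lean`) asks, for the `Γ₀(M)`-field `F0` written inside
the full-level field (variable `X = q^{1/M}`), the `q`-expansion principle `qep0` and the DVR
fields of `R`.  These are known for the S18 model (`Alg.GoodModel`, from `S18 node_mod` = landed
S28) inside `Ω₁ = Om M` (variable `q`).  This file transports them along ANY field homomorphism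
(in the application `q ↦ X^M`), defined on all of `Ω₁` (`φ : Ω₁ →+* Ω₂`) or only on the function
field (`φ : ↥Fc →+* Ω₂`):

* `polyRing_map`, `isIntegral_map_iff`, `map_mem_chart_iff`, `mem_chart_map_iff` : charts commute
  with `φ`;
* `mem_of_map_mem` : if `V₁.map φ ≤ V` and `(φ w)⁻¹ ∉ V` then `φ f ∈ V → f ∈ V₁` for `f ∈ Fc`
  (`V₁` is a valuation ring of `Fc` with uniformiser `w`);
* `qep_map` : the `q`-expansion principle for `(Fc.map φ, R.map φ, V, φ w, φ x)`;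
* `BaseModel` (the part of `GoodModel` that is used), `BaseModel.of_goodModel`,
  `BaseModel.restrict` (pass to the field `↥Fc`);
* `IgusaBase` = ALL fields of `IgusaData` that only concern `Ec, F0, R, w, x` and `qep0`;
  `igusaBase_of_baseModel`, `igusaBase_of_goodModel` (`φ` on `Ω₁`),
  `igusaBase_of_goodModel_sub` (`φ` on `↥Fc`);
* `igusaData_of_base` : `IgusaData` from `IgusaBase` and the remaining fields (I-V, I-ACT, I-TV,
  I-F0).
-/

set_option autoImplicit false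

namespace Fermat.Agent.S48.H256

open Fermat.Agent.S18.Alg Polynomial

section Transport

variable {Ω₁ Ω₂ : Type*} [Field Ω₁] [Field Ω₂] (φ : Ω₁ →+* Ω₂)

/-- `φ(R[x]) = φ(R)[φ x]`. -/
theorem polyRing_map (R : Subring Ω₁) (x : Ω₁) :
    (polyRing R x).map φ = polyRing (R.map φ) (φ x) := by
  unfold polyRing
  rw [RingHom.map_closure, Set.image_union, Set.image_singleton]
  rfl

/-- Integrality over a subring is insensitive to an (injective) field homomorphism. -/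
theorem isIntegral_map_iff (T : Subring Ω₁) (y : Ω₁) :
    IsIntegral (T.map φ) (φ y) ↔ IsIntegral T y := by
  rw [H588.isIntegral_subring_iff, H588.isIntegral_subring_iff]
  constructor
  · rintro ⟨p, hp, hc, hpy⟩
    have hl : p ∈ Polynomial.lifts φ := by
      rw [Polynomial.lifts_iff_coeff_lifts]
      intro n
      obtain ⟨c, -, hcn⟩ := hc n
      exact ⟨c, hcn⟩
    obtain ⟨q, hq, -, hqm⟩ := Polynomial.lifts_and_degree_eq_and_monic hl hp
    refine ⟨q, hqm, fun i => ?_, ?_⟩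
    · obtain ⟨c, hcT, hcn⟩ := hc i
      have h1 : φ (q.coeff i) = φ c := by
        rw [hcn, ← hq, Polynomial.coeff_map]
      rw [φ.injective h1]
      exact hcT
    · apply φ.injective
      rw [map_zero, ← Polynomial.eval_map_apply, hq]
      exact hpy
  · rintro ⟨p, hp, hc, hpy⟩
    refine ⟨p.map φ, hp.map φ, fun i => ?_, ?_⟩
    · rw [Polynomial.coeff_map]
      exact ⟨p.coeff i, hc i, rfl⟩
    · rw [Polynomial.eval_map_apply, hpy, map_zero]

/-- Charts commute with `φ` (elementwise, image of an element). -/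
theorem map_mem_chart_iff (Fc : Subfield Ω₁) (R : Subring Ω₁) (x b : Ω₁) :
    φ b ∈ chart (Fc.map φ) (R.map φ) (φ x) ↔ b ∈ chart Fc R x := by
  unfold chart
  simp only [Set.mem_ofPred_eq]
  rw [← polyRing_map, isIntegral_map_iff]
  constructor
  · rintro ⟨⟨c, hc, hcb⟩, hint⟩
    rw [← φ.injective hcb]
    exact ⟨hc, by rwa [φ.injective hcb]⟩
  · rintro ⟨hb, hint⟩
    exact ⟨⟨b, hb, rfl⟩, hint⟩

/-- Every element of the image chart is the image of an element of the chart. -/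
theorem mem_chart_map_iff (Fc : Subfield Ω₁) (R : Subring Ω₁) (x : Ω₁) (b : Ω₂) :
    b ∈ chart (Fc.map φ) (R.map φ) (φ x) ↔ ∃ b₁ ∈ chart Fc R x, φ b₁ = b := by
  constructor
  · intro hb
    obtain ⟨b₁, -, rfl⟩ := hb.1
    exact ⟨b₁, (map_mem_chart_iff φ Fc R x b₁).mp hb, rfl⟩
  · rintro ⟨b₁, hb₁, rfl⟩
    exact (map_mem_chart_iff φ Fc R x b₁).mpr hb₁

/-- The valuation ring `V₁` of `Fc` is the trace of any subring `V ⊇ φ(V₁)` not containing
`(φ w)⁻¹`. -/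
theorem mem_of_map_mem (Fc : Subfield Ω₁) (V₁ : Subring Ω₁) (w : Ω₁) (V : Subring Ω₂)
    (V_total : ∀ f ∈ Fc, f ∈ V₁ ∨ f⁻¹ ∈ V₁)
    (V_gen : ∀ f ∈ V₁, f⁻¹ ∉ V₁ → f * w⁻¹ ∈ V₁)
    (hV : V₁.map φ ≤ V) (hw : (φ w)⁻¹ ∉ V) :
    ∀ f ∈ Fc, φ f ∈ V → f ∈ V₁ := by
  intro f hf hfV
  by_contra hfn
  have hf0 : f ≠ 0 := fun h0 => hfn (h0 ▸ V₁.zero_mem)
  have hinv : f⁻¹ ∈ V₁ := (V_total f hf).resolve_left hfn
  have h1 : f⁻¹ * w⁻¹ ∈ V₁ := V_gen f⁻¹ hinv (by rwa [inv_inv])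
  have h2 : φ (f⁻¹ * w⁻¹) ∈ V := hV ⟨_, h1, rfl⟩
  have h3 : φ f * φ (f⁻¹ * w⁻¹) ∈ V := V.mul_mem hfV h2
  apply hw
  have h4 : φ f * φ (f⁻¹ * w⁻¹) = (φ w)⁻¹ := by
    rw [← map_mul, ← mul_assoc, mul_inv_cancel₀ hf0, one_mul, map_inv₀]
  rwa [h4] at h3

/-- **Transport of the `q`-expansion principle** along `φ`. -/
theorem qep_map (Fc : Subfield Ω₁) (R V₁ : Subring Ω₁) (w x : Ω₁) (V : Subring Ω₂)
    (hwF : w ∈ Fc)
    (hV : ∀ f ∈ Fc, φ f ∈ V → f ∈ V₁)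
    (hq : ∀ b ∈ chart Fc R x, b * w⁻¹ ∈ V₁ → b * w⁻¹ ∈ chart Fc R x) :
    ∀ b ∈ chart (Fc.map φ) (R.map φ) (φ x), b * (φ w)⁻¹ ∈ V →
      b * (φ w)⁻¹ ∈ chart (Fc.map φ) (R.map φ) (φ x) := by
  intro b hb hbV
  obtain ⟨b₁, hb₁, rfl⟩ := (mem_chart_map_iff φ Fc R x b).mp hb
  have h1 : φ b₁ * (φ w)⁻¹ = φ (b₁ * w⁻¹) := by rw [map_mul, map_inv₀]
  rw [h1] at hbV ⊢
  have h2 : b₁ * w⁻¹ ∈ Fc := Fc.mul_mem hb₁.1 (Fc.inv_mem hwF)
  exact (map_mem_chart_iff φ Fc R x _).mpr (hq b₁ hb₁ (hV _ h2 hbV))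

/-- Transcendence over a subring passes to the image under `φ`. -/
theorem transcendental_map (R : Subring Ω₁) (x : Ω₁)
    (hx : Transcendental R x) : Transcendental (R.map φ) (φ x) := by
  intro halg
  apply hx
  obtain ⟨p, hp0, hp⟩ := halg
  have hcoef : ∀ n, ∃ c : R, φ (c : Ω₁) = ((p.coeff n : R.map φ) : Ω₂) := by
    intro n
    obtain ⟨c, hc, hcn⟩ := (p.coeff n).2
    exact ⟨⟨c, hc⟩, hcn⟩
  choose c hc using hcoef
  let P : Polynomial R := ∑ n ∈ p.support, Polynomial.monomial n (c n)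
  have hPcoeff : ∀ n, n ∈ p.support → P.coeff n = c n := by
    intro n hn
    simp only [P, Polynomial.finsetSum_coeff, Polynomial.coeff_monomial]
    rw [Finset.sum_eq_single n]
    · simp
    · intro m _ hmn
      simp [hmn]
    · intro hn'
      exact absurd hn hn'
  refine ⟨P, ?_, ?_⟩
  · intro hP0
    obtain ⟨n, hn⟩ : ∃ n, n ∈ p.support := by
      by_contra hne
      apply hp0
      exact Polynomial.support_eq_empty.mp
        (Finset.eq_empty_of_forall_notMem fun n hn => hne ⟨n, hn⟩)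
    have h1 : c n = 0 := by rw [← hPcoeff n hn, hP0, Polynomial.coeff_zero]
    have h2 : ((p.coeff n : R.map φ) : Ω₂) = 0 := by rw [← hc n, h1]; simp
    exact (Polynomial.mem_support_iff.mp hn) (Subtype.ext h2)
  · apply φ.injective
    rw [map_zero]
    have h1 : φ (Polynomial.aeval x P) = ∑ n ∈ p.support, φ (c n : Ω₁) * (φ x) ^ n := by
      simp only [P, map_sum, Polynomial.aeval_monomial, map_mul, map_pow]
      rfl
    have h2 : Polynomial.aeval (φ x) p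
        = ∑ n ∈ p.support, ((p.coeff n : R.map φ) : Ω₂) * (φ x) ^ n := by
      rw [Polynomial.aeval_eq_sum_range, Finset.sum_subset (s₁ := p.support)
        (s₂ := Finset.range (p.natDegree + 1))]
      · apply Finset.sum_congr rfl
        intro n _
        rw [Algebra.smul_def]
        rfl
      · intro n hn
        rw [Finset.mem_range]
        exact Nat.lt_succ_of_le (Polynomial.le_natDegree_of_mem_supp n hn)
      · intro n _ hn
        rw [Polynomial.notMem_support_iff.mp hn]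
        simp
    rw [h1, ← hp, h2]
    exact Finset.sum_congr rfl fun n _ => by rw [hc n]

end Transport

section Base

variable {Ω : Type*} [Field Ω]

/-- The part of `Alg.GoodModel` used by the transport: DVR `R ⊆ Ec ⊆ Fc`, coordinate `x`,
valuation ring `V` of `Fc` with uniformiser `w`, `q`-expansion principle on both charts. -/
structure BaseModel (Ec Fc : Subfield Ω) (R V : Subring Ω) (w x : Ω) : Prop where
  R_le : ∀ r ∈ R, r ∈ Ec
  R_total : ∀ e ∈ Ec, e ∈ R ∨ e⁻¹ ∈ R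
  w_mem : w ∈ R
  w_ne_zero : w ≠ 0
  w_inv_not_mem : w⁻¹ ∉ R
  w_discrete : ∀ r ∈ R, r ≠ 0 → ∃ n : ℕ, r * (w⁻¹) ^ n ∈ R ∧ (r * (w⁻¹) ^ n)⁻¹ ∈ R
  E_le_F : Ec ≤ Fc
  x_mem : x ∈ Fc
  x_transcendental : Transcendental R x
  V_total : ∀ f ∈ Fc, f ∈ V ∨ f⁻¹ ∈ V
  V_gen : ∀ f ∈ V, f⁻¹ ∉ V → f * w⁻¹ ∈ V
  qep_fin : ∀ b ∈ chart Fc R x, b * w⁻¹ ∈ V → b * w⁻¹ ∈ chart Fc R x
  qep_inf : ∀ b ∈ chart Fc R x⁻¹, b * w⁻¹ ∈ V → b * w⁻¹ ∈ chart Fc R x⁻¹

/-- Transcendence over a subfield implies transcendence over a subring of it. -/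
theorem transcendental_subring_of_subfield (Lc : Subfield Ω) (R : Subring Ω)
    (hRL : ∀ r ∈ R, r ∈ Lc) (x : Ω) (hx : Transcendental Lc x) : Transcendental R x := by
  intro halg
  apply hx
  obtain ⟨p, hp0, hp⟩ := halg
  let ι : R →+* Lc := (Subring.inclusion (show R ≤ Lc.toSubring from hRL))
  have hι : Function.Injective ι := Subring.inclusion_injective _
  refine ⟨p.map ι, (Polynomial.map_ne_zero_iff hι).mpr hp0, ?_⟩
  rw [Polynomial.aeval_def, Polynomial.eval₂_map]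
  exact hp

/-- A good model of S18 is a base model. -/
theorem BaseModel.of_goodModel {Lc Ec Fc : Subfield Ω} {R V : Subring Ω} {w x : Ω}
    {S : Finset Ω} (G : GoodModel Lc Ec Fc R V w x S) : BaseModel Ec Fc R V w x where
  R_le := fun _ hr => G.R_le hr
  R_total := G.R_total
  w_mem := G.w_mem
  w_ne_zero := G.w_ne_zero
  w_inv_not_mem := G.w_inv_not_mem
  w_discrete := G.w_discrete
  E_le_F := G.E_le_F
  x_mem := G.x_mem
  x_transcendental :=
    transcendental_subring_of_subfield Lc R (fun _ hr => G.E_le_L (G.R_le hr)) x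
      G.x_transcendental
  V_total := G.V_total
  V_gen := G.V_gen
  qep_fin := G.qep_fin
  qep_inf := G.qep_inf

end Base

section Igusa

variable {Ω₁ Ω₂ : Type*} [Field Ω₁] [Field Ω₂]

/-- The fields of `H856.IgusaData` which concern only the base model `(Ec, F0, R, w, x)` and the
trace of `V` on `F0` (plus the chart at infinity). -/
structure IgusaBase (Ec F0 : Subfield Ω₂) (R V : Subring Ω₂) (w x : Ω₂) : Prop where
  R_le : ∀ r ∈ R, r ∈ Ec
  R_total : ∀ e ∈ Ec, e ∈ R ∨ e⁻¹ ∈ R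
  w_mem : w ∈ R
  w_ne_zero : w ≠ 0
  w_inv_not_mem : w⁻¹ ∉ R
  w_discrete : ∀ r ∈ R, r ≠ 0 → ∃ n : ℕ, r * (w⁻¹) ^ n ∈ R ∧ (r * (w⁻¹) ^ n)⁻¹ ∈ R
  E_le_F0 : Ec ≤ F0
  x_mem_F0 : x ∈ F0
  x_transcendental : Transcendental R x
  qep0 : ∀ b ∈ chart F0 R x, b * w⁻¹ ∈ V → b * w⁻¹ ∈ chart F0 R x
  qep0_inf : ∀ b ∈ chart F0 R x⁻¹, b * w⁻¹ ∈ V → b * w⁻¹ ∈ chart F0 R x⁻¹

/-- **I-S28, core**: transport of a base model along a field homomorphism `φ`.  The only inputs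
about the Gauss ring `V` of the big field are `V₁.map φ ≤ V` and `(φ w)⁻¹ ∉ V`. -/
theorem igusaBase_of_baseModel (φ : Ω₁ →+* Ω₂) {Ec Fc : Subfield Ω₁} {R V₁ : Subring Ω₁}
    {w x : Ω₁} (G : BaseModel Ec Fc R V₁ w x) (V : Subring Ω₂)
    (hV : V₁.map φ ≤ V) (hw : (φ w)⁻¹ ∉ V) :
    IgusaBase (Ec.map φ) (Fc.map φ) (R.map φ) V (φ w) (φ x) := by
  have hwF : w ∈ Fc := G.E_le_F (G.R_le w G.w_mem)
  have htr : ∀ f ∈ Fc, φ f ∈ V → f ∈ V₁ :=
    mem_of_map_mem φ Fc V₁ w V G.V_total G.V_gen hV hw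
  refine
    { R_le := ?_
      R_total := ?_
      w_mem := ⟨w, G.w_mem, rfl⟩
      w_ne_zero := (map_ne_zero φ).mpr G.w_ne_zero
      w_inv_not_mem := ?_
      w_discrete := ?_
      E_le_F0 := ?_
      x_mem_F0 := ⟨x, G.x_mem, rfl⟩
      x_transcendental := transcendental_map φ R x G.x_transcendental
      qep0 := qep_map φ Fc R V₁ w x V hwF htr G.qep_fin
      qep0_inf := ?_ }
  · rintro _ ⟨r, hr, rfl⟩
    exact ⟨r, G.R_le r hr, rfl⟩
  · rintro _ ⟨e, he, rfl⟩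
    rcases G.R_total e he with h | h
    · exact Or.inl ⟨e, h, rfl⟩
    · exact Or.inr ⟨e⁻¹, h, map_inv₀ φ e⟩
  · rintro ⟨r, hr, hrw⟩
    apply G.w_inv_not_mem
    have : r = w⁻¹ := φ.injective (by rw [hrw, map_inv₀])
    rwa [← this]
  · rintro _ ⟨r, hr, rfl⟩ hr0
    have hr0' : r ≠ 0 := fun h0 => hr0 (by rw [h0, map_zero])
    obtain ⟨n, h1, h2⟩ := G.w_discrete r hr hr0'
    refine ⟨n, ⟨_, h1, by rw [map_mul, map_pow, map_inv₀]⟩, ⟨_, h2, ?_⟩⟩
    rw [map_inv₀, map_mul, map_pow, map_inv₀]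
  · rintro _ ⟨e, he, rfl⟩
    exact ⟨e, G.E_le_F he, rfl⟩
  · have h := qep_map φ Fc R V₁ w x⁻¹ V hwF htr G.qep_inf
    rwa [map_inv₀] at h

/-- **I-S28** for a homomorphism defined on the whole ambient field of the S18 model. -/
theorem igusaBase_of_goodModel (φ : Ω₁ →+* Ω₂) {Lc Ec Fc : Subfield Ω₁} {R V₁ : Subring Ω₁}
    {w x : Ω₁} {S : Finset Ω₁} (G : GoodModel Lc Ec Fc R V₁ w x S) (V : Subring Ω₂)
    (hV : V₁.map φ ≤ V) (hw : (φ w)⁻¹ ∉ V) :
    IgusaBase (Ec.map φ) (Fc.map φ) (R.map φ) V (φ w) (φ x) :=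
  igusaBase_of_baseModel φ (BaseModel.of_goodModel G) V hV hw

/-- The trace of `V` on the image of `Fc` is exactly the image of `V₁`. -/
theorem mem_map_iff_of_baseModel (φ : Ω₁ →+* Ω₂) {Ec Fc : Subfield Ω₁} {R V₁ : Subring Ω₁}
    {w x : Ω₁} (G : BaseModel Ec Fc R V₁ w x) (V : Subring Ω₂)
    (hV : V₁.map φ ≤ V) (hw : (φ w)⁻¹ ∉ V) (f : Ω₁) (hf : f ∈ Fc) :
    φ f ∈ V ↔ f ∈ V₁ :=
  ⟨mem_of_map_mem φ Fc V₁ w V G.V_total G.V_gen hV hw f hf, fun h => hV ⟨f, h, rfl⟩⟩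

/-- Restriction of a base model to the field `↥Fc` (all sub-objects pulled back along the
inclusion). -/
theorem BaseModel.restrict {Ec Fc : Subfield Ω₁} {R V₁ : Subring Ω₁} {w x : Ω₁}
    (G : BaseModel Ec Fc R V₁ w x) :
    BaseModel (Ec.comap Fc.subtype) (⊤ : Subfield Fc) (R.comap Fc.subtype)
      (V₁.comap Fc.subtype) (⟨w, G.E_le_F (G.R_le w G.w_mem)⟩ : Fc) (⟨x, G.x_mem⟩ : Fc) := by
  set ψ : Fc →+* Ω₁ := Fc.subtype with hψ
  have hRF : ∀ r ∈ R, r ∈ Fc := fun r hr => G.E_le_F (G.R_le r hr)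
  have hmapR : (R.comap ψ).map ψ = R := by
    ext r
    constructor
    · rintro ⟨r', hr', rfl⟩
      exact hr'
    · intro hr
      exact ⟨⟨r, hRF r hr⟩, hr, rfl⟩
  have hmapF : (⊤ : Subfield Fc).map ψ = Fc := by
    ext f
    constructor
    · rintro ⟨f', -, rfl⟩
      exact f'.2
    · intro hf
      exact ⟨⟨f, hf⟩, Subfield.mem_top _, rfl⟩
  have hchart : ∀ (y b : Fc), b ∈ chart (⊤ : Subfield Fc) (R.comap ψ) y ↔
      (b : Ω₁) ∈ chart Fc R (y : Ω₁) := by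
    intro y b
    have h := map_mem_chart_iff ψ (⊤ : Subfield Fc) (R.comap ψ) y b
    rw [hmapR, hmapF] at h
    exact h.symm
  refine
    { R_le := fun r hr => G.R_le _ hr
      R_total := fun e he => ?_
      w_mem := G.w_mem
      w_ne_zero := fun h0 => G.w_ne_zero (congrArg Subtype.val h0)
      w_inv_not_mem := fun h => G.w_inv_not_mem h
      w_discrete := fun r hr hr0 => ?_
      E_le_F := fun _ _ => Subfield.mem_top _
      x_mem := Subfield.mem_top _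
      x_transcendental := ?_
      V_total := fun f _ => ?_
      V_gen := fun f hf hfn => ?_
      qep_fin := fun b hb hbV => ?_
      qep_inf := fun b hb hbV => ?_ }
  · rcases G.R_total e he with h | h
    · exact Or.inl h
    · exact Or.inr h
  · have hr0' : (r : Ω₁) ≠ 0 := fun h0 => hr0 (Subtype.ext h0)
    obtain ⟨n, h1, h2⟩ := G.w_discrete r hr hr0'
    exact ⟨n, h1, h2⟩
  · intro halg
    apply G.x_transcendental
    obtain ⟨p, hp0, hp⟩ := halg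
    let ι : R.comap ψ →+* R :=
      { toFun := fun r => ⟨ψ r, r.2⟩
        map_one' := rfl
        map_mul' := fun _ _ => rfl
        map_zero' := rfl
        map_add' := fun _ _ => rfl }
    have hι : Function.Injective ι := by
      intro a b hab
      apply Subtype.ext
      apply Subtype.ext
      exact congrArg (fun z : R => (z : Ω₁)) hab
    refine ⟨p.map ι, (Polynomial.map_ne_zero_iff hι).mpr hp0, ?_⟩
    have h1 := congrArg ψ hp
    rw [map_zero, Polynomial.aeval_def, Polynomial.hom_eval₂] at h1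
    rw [Polynomial.aeval_def, Polynomial.eval₂_map]
    exact h1
  · rcases G.V_total f f.2 with h | h
    · exact Or.inl h
    · exact Or.inr h
  · exact G.V_gen f hf hfn
  · have hb' : (b : Ω₁) ∈ chart Fc R x := (hchart ⟨x, G.x_mem⟩ b).mp hb
    have hbV' : (b : Ω₁) * w⁻¹ ∈ V₁ := hbV
    have h1 : (b : Ω₁) * w⁻¹ ∈ chart Fc R x := G.qep_fin b hb' hbV'
    rw [hchart]
    exact h1
  · have hb' : (b : Ω₁) ∈ chart Fc R x⁻¹ := (hchart (⟨x, G.x_mem⟩ : Fc)⁻¹ b).mp hb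
    have hbV' : (b : Ω₁) * w⁻¹ ∈ V₁ := hbV
    have h1 : (b : Ω₁) * w⁻¹ ∈ chart Fc R x⁻¹ := G.qep_inf b hb' hbV'
    rw [hchart]
    exact h1

/-- **I-S28** for a homomorphism defined only on the function field `↥Fc` of the S18 model. -/
theorem igusaBase_of_goodModel_sub {Lc Ec Fc : Subfield Ω₁} {R V₁ : Subring Ω₁}
    {w x : Ω₁} {S : Finset Ω₁} (G : GoodModel Lc Ec Fc R V₁ w x S) (φ : Fc →+* Ω₂)
    (V : Subring Ω₂) (hV : ∀ f : Fc, (f : Ω₁) ∈ V₁ → φ f ∈ V)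
    (hw : (φ ⟨w, G.E_le_F (G.R_le G.w_mem)⟩)⁻¹ ∉ V) :
    IgusaBase ((Ec.comap Fc.subtype).map φ) φ.fieldRange ((R.comap Fc.subtype).map φ) V
      (φ ⟨w, G.E_le_F (G.R_le G.w_mem)⟩) (φ ⟨x, G.x_mem⟩) := by
  have h := igusaBase_of_baseModel φ (BaseModel.of_goodModel G).restrict V
    (by rintro _ ⟨f, hf, rfl⟩; exact hV f hf) hw
  have htop : (⊤ : Subfield Fc).map φ = φ.fieldRange := by
    ext z
    constructor
    · rintro ⟨f, -, rfl⟩
      exact ⟨f, rfl⟩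
    · rintro ⟨f, rfl⟩
      exact ⟨f, Subfield.mem_top _, rfl⟩
  rwa [htop] at h

/-- Assembly: `IgusaData` from the base fields and the remaining obligations
(I-V: `V`; I-ACT: `G`, `B`, `t`; I-TV: `t_V`; I-F0: `B_inv`). -/
theorem igusaData_of_base {Ec F0 Ffull : Subfield Ω₂} {R V : Subring Ω₂} {w x : Ω₂}
    {G B : Subgroup (Ω₂ ≃+* Ω₂)} {t : Ω₂ ≃+* Ω₂}
    (hb : IgusaBase Ec F0 R V w x)
    (E_le : Ec ≤ Ffull) (x_mem : x ∈ Ffull)
    (R_le_V : R ≤ V) (x_mem_V : x ∈ V)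
    (V_total : ∀ f ∈ Ffull, f ∈ V ∨ f⁻¹ ∈ V)
    (w_inv_not_mem_V : w⁻¹ ∉ V)
    (V_discrete : ∀ f ∈ Ffull, f ≠ 0 → ∃ n : ℤ, f * w ^ n ∈ V ∧ (f * w ^ n)⁻¹ ∈ V)
    (gauss : ∀ P : Polynomial Ω₂, (∀ i, P.coeff i ∈ R) →
      (∃ i, P.coeff i ≠ 0 ∧ (P.coeff i)⁻¹ ∈ R) → (P.eval x)⁻¹ ∈ V)
    (G_finite : Finite G)
    (G_fix_E : ∀ g ∈ G, ∀ a ∈ Ec, g a = a)
    (G_fix_x : ∀ g ∈ G, g x = x)
    (G_stable : ∀ g ∈ G, ∀ f ∈ Ffull, g f ∈ Ffull)
    (G_inv : ∀ f ∈ Ffull, (∀ g ∈ G, g f = f) → f ∈ ratField Ec x)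
    (B_le : B ≤ G) (t_mem : t ∈ B)
    (t_normal : ∀ b ∈ B, b * t * b⁻¹ ∈ Subgroup.zpowers t)
    (t_gen : G ≤ Subgroup.closure {s | ∃ g ∈ G, s = g * t * g⁻¹})
    (t_V : ∀ f ∈ Ffull, t f ∈ V ↔ f ∈ V)
    (B_inv : ∀ f ∈ Ffull, (∀ b ∈ B, b f = f) → f ∈ F0) :
    H856.IgusaData Ec F0 Ffull R V w x G B t where
  R_le := hb.R_le
  R_total := hb.R_total
  w_mem := hb.w_mem
  w_ne_zero := hb.w_ne_zero
  w_inv_not_mem := hb.w_inv_not_mem
  w_discrete := hb.w_discrete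
  E_le := E_le
  x_mem := x_mem
  x_transcendental := hb.x_transcendental
  R_le_V := R_le_V
  x_mem_V := x_mem_V
  V_total := V_total
  w_inv_not_mem_V := w_inv_not_mem_V
  V_discrete := V_discrete
  gauss := gauss
  G_finite := G_finite
  G_fix_E := G_fix_E
  G_fix_x := G_fix_x
  G_stable := G_stable
  G_inv := G_inv
  B_le := B_le
  t_mem := t_mem
  t_normal := t_normal
  t_gen := t_gen
  t_V := t_V
  B_inv := B_inv
  qep0 := hb.qep0

end Igusa

end Fermat.Agent.S48.H256
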